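/-
S32lib / Rep (helper8): **from the Cayley–Hamilton relation to an isomorphism.**
`M, ρ' : G → GL₂(F)` (as monoid homs into `M₂(F)`, `G` a group), `span ρ'(G) = M₂(F)`, and every
`M σ` is killed by the characteristic polynomial of `ρ' σ`:
`M σ² - tr(ρ' σ) M σ + det(ρ' σ) = 0`.  Then `M` and `ρ'` are conjugate.
(2×2 dichotomy: `M σ` has the trace and determinant of `ρ' σ` or is a scalar; if all `M σ` are
scalars the trace of `ρ'` is a sum of two characters, impossible; otherwise the traces agree.)
-/
import Mathlib
import Fermat.Agent.S32lib.Rep.Conj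

set_option autoImplicit false
set_option linter.unusedSectionVars false
set_option linter.style.haveILetI false

noncomputable section

namespace Fermat.Agent.S32lib

open Matrix

section dichotomy

variable {R : Type*} [CommRing R] [IsDomain R]

/-- a 2×2 matrix over a domain killed by `X² - aX + l` either has trace `a` and determinant `l`,
or is a scalar root of the quadratic. -/
theorem quad_dichotomy (M : Matrix (Fin 2) (Fin 2) R) (a l : R)
    (h : M * M - a • M + l • (1 : Matrix (Fin 2) (Fin 2) R) = 0) :
    (M.trace = a ∧ M.det = l) ∨ ∃ c : R, M = c • (1 : Matrix (Fin 2) (Fin 2) R) ∧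
      c * c - a * c + l = 0 := by
  have h00 := congrFun (congrFun h 0) 0
  have h01 := congrFun (congrFun h 0) 1
  have h10 := congrFun (congrFun h 1) 0
  have h11 := congrFun (congrFun h 1) 1
  simp only [Matrix.add_apply, Matrix.sub_apply, Matrix.mul_apply, Fin.sum_univ_two,
    Matrix.smul_apply, Matrix.one_apply, Matrix.zero_apply, smul_eq_mul] at h00 h01 h10 h11
  simp only [Fin.isValue, ↓reduceIte, mul_one, mul_zero, add_zero, zero_ne_one, one_ne_zero]
    at h00 h01 h10 h11
  by_cases ht : M 0 0 + M 1 1 = a
  · left
    refine ⟨by rw [Matrix.trace_fin_two]; exact ht, ?_⟩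
    rw [Matrix.det_fin_two]
    linear_combination (-1 : R) * h00 + M 0 0 * ht
  · right
    have hne : M 0 0 + M 1 1 - a ≠ 0 := sub_ne_zero.mpr ht
    have hy : M 0 1 = 0 := by
      have : M 0 1 * (M 0 0 + M 1 1 - a) = 0 := by linear_combination h01
      exact (mul_eq_zero.mp this).resolve_right hne
    have hz : M 1 0 = 0 := by
      have : M 1 0 * (M 0 0 + M 1 1 - a) = 0 := by linear_combination h10
      exact (mul_eq_zero.mp this).resolve_right hne
    have hxw : M 0 0 = M 1 1 := by
      have : (M 0 0 - M 1 1) * (M 0 0 + M 1 1 - a) = 0 := by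
        linear_combination h00 - h11
      exact sub_eq_zero.mp ((mul_eq_zero.mp this).resolve_right hne)
    refine ⟨M 0 0, ?_, ?_⟩
    · ext i j
      fin_cases i <;> fin_cases j <;> simp [hy, hz, hxw]
    · rw [hy] at h00
      linear_combination h00

end dichotomy

section quad

variable {F : Type*} [Field F] {G : Type*} [Group G]

theorem det_ne_zero_of_monoidHom (N : G →* Matrix (Fin 2) (Fin 2) F) (σ : G) :
    (N σ).det ≠ 0 := by
  intro h
  have h1 : N σ * N σ⁻¹ = 1 := by rw [← map_mul, mul_inv_cancel, map_one]
  have h2 := congrArg Matrix.det h1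
  rw [Matrix.det_mul, h, zero_mul, Matrix.det_one] at h2
  exact zero_ne_one h2

/-- **Cayley–Hamilton relation + Burnside ⇒ conjugate.** -/
theorem exists_conj_of_quad (M ρ' : G →* Matrix (Fin 2) (Fin 2) F)
    (hspan : Submodule.span F (Set.range ρ') = ⊤)
    (hquad : ∀ σ, M σ * M σ - (ρ' σ).trace • M σ +
      (ρ' σ).det • (1 : Matrix (Fin 2) (Fin 2) F) = 0) :
    ∃ P : Matrix (Fin 2) (Fin 2) F, P.det ≠ 0 ∧ ∀ σ, M σ * P = P * ρ' σ := by
  classical
  have hdetM := det_ne_zero_of_monoidHom M
  have hdetρ := det_ne_zero_of_monoidHom ρ'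
  by_cases hZ : ∀ σ, ∃ c : F, M σ = c • (1 : Matrix (Fin 2) (Fin 2) F)
  · -- all scalars: impossible
    exfalso
    choose c hc using hZ
    have hc0 : ∀ σ, c σ ≠ 0 := by
      intro σ h0
      apply hdetM σ
      rw [hc σ, h0, zero_smul, Matrix.det_zero]
    have hc1 : c 1 = 1 := by
      have := hc 1
      rw [map_one] at this
      have h00 := congrFun (congrFun this 0) 0
      simpa using h00.symm
    have hcmul : ∀ σ τ, c (σ * τ) = c σ * c τ := by
      intro σ τ
      have := hc (σ * τ)
      rw [map_mul, hc σ, hc τ, Matrix.smul_mul, Matrix.one_mul, smul_smul] at this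
      have h00 := congrFun (congrFun this 0) 0
      simpa using h00.symm
    -- the quadratic relation for the scalars
    have hcq : ∀ σ, c σ * c σ - (ρ' σ).trace * c σ + (ρ' σ).det = 0 := by
      intro σ
      have := hquad σ
      rw [hc σ] at this
      have h00 := congrFun (congrFun this 0) 0
      simpa [Matrix.smul_apply, Matrix.mul_apply, Fin.sum_univ_two] using h00
    -- the diagonal representation
    let d₂ : G → F := fun σ => (ρ' σ).det * (c σ)⁻¹
    let D : G →* Matrix (Fin 2) (Fin 2) F :=
      { toFun := fun σ => Matrix.diagonal ![c σ, d₂ σ]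
        map_one' := by
          ext i j
          fin_cases i <;> fin_cases j <;> simp [d₂, hc1]
        map_mul' := by
          intro σ τ
          rw [Matrix.diagonal_mul_diagonal]
          congr 1
          ext i
          fin_cases i
          · simp [hcmul]
          · simp only [d₂, map_mul, Matrix.det_mul, hcmul, mul_inv]
            simp
            ring }
    have hDtr : ∀ σ, (D σ).trace = (ρ' σ).trace := by
      intro σ
      change (Matrix.diagonal ![c σ, d₂ σ]).trace = _
      rw [Matrix.trace_fin_two]
      simp only [Matrix.diagonal_apply_eq, Matrix.cons_val_zero, Matrix.cons_val_one, d₂]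
      have h1 := hcq σ
      have e : (c σ)⁻¹ * c σ = 1 := inv_mul_cancel₀ (hc0 σ)
      apply mul_right_cancel₀ (hc0 σ)
      linear_combination h1 + (ρ' σ).det * e
    apply not_forall_commute_of_trace_eq D ρ' hspan hDtr
    intro σ τ
    change Commute (Matrix.diagonal ![c σ, d₂ σ]) (Matrix.diagonal ![c τ, d₂ τ])
    rw [Commute, SemiconjBy, Matrix.diagonal_mul_diagonal, Matrix.diagonal_mul_diagonal]
    congr 1
    ext i
    exact mul_comm _ _
  · -- some `M σ₀` is not a scalar: the traces agree
    push Not at hZ
    obtain ⟨σ₀, hσ₀⟩ := hZ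
    have hσ₀A : (M σ₀).trace = (ρ' σ₀).trace ∧ (M σ₀).det = (ρ' σ₀).det := by
      rcases quad_dichotomy (M σ₀) _ _ (hquad σ₀) with h | ⟨c, hc, -⟩
      · exact h
      · exact absurd hc (hσ₀ c)
    have htr : ∀ z, (M z).trace = (ρ' z).trace := by
      intro z
      rcases quad_dichotomy (M z) _ _ (hquad z) with h | ⟨c, hc, hcq⟩
      · exact h.1
      · have hc0 : c ≠ 0 := by
          intro h0
          apply hdetM z
          rw [hc, h0, zero_smul, Matrix.det_zero]
        have hMσz : M (σ₀ * z) = c • M σ₀ := by
          rw [map_mul, hc, Matrix.mul_smul, Matrix.mul_one]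
        have hA : (M (σ₀ * z)).det = (ρ' (σ₀ * z)).det := by
          rcases quad_dichotomy (M (σ₀ * z)) _ _ (hquad (σ₀ * z)) with h | ⟨c', hc', -⟩
          · exact h.2
          · exfalso
            apply hσ₀ (c⁻¹ * c')
            rw [hMσz] at hc'
            rw [← smul_smul, ← hc', smul_smul, inv_mul_cancel₀ hc0, one_smul]
        rw [hMσz, Matrix.det_smul, Fintype.card_fin, map_mul, Matrix.det_mul, hσ₀A.2] at hA
        have hdz : (ρ' z).det = c ^ 2 := by
          have := mul_left_cancel₀ (hdetρ σ₀) (by linear_combination (-1 : F) * hA :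
            (ρ' σ₀).det * (ρ' z).det = (ρ' σ₀).det * c ^ 2)
          exact this
        rw [hc, Matrix.trace_smul, Matrix.trace_one, Fintype.card_fin, smul_eq_mul]
        have h2 : c * ((ρ' z).trace - 2 * c) = 0 := by
          rw [hdz] at hcq
          linear_combination -hcq
        have h3 := (mul_eq_zero.mp h2).resolve_left hc0
        have h4 : (ρ' z).trace = 2 * c := sub_eq_zero.mp h3
        rw [h4]
        push_cast
        ring
    exact exists_conj_of_trace_eq M ρ' hspan htr

end quad

end Fermat.Agent.S32lib
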