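/-
S32lib / Rep (helper8): **explicit Skolem–Noether for `M₂(F)`**: every `F`-algebra endomorphism
`Ψ` of `M₂(F)` is conjugation by an invertible matrix, `Ψ X * P = P * X`.
(`P = [Ψ(E₀₀)u | Ψ(E₁₀)u]` for a vector `u` with `Ψ(E₀₀)u ≠ 0`.)
-/
import Mathlib

set_option autoImplicit false
set_option linter.unusedSectionVars false
set_option linter.style.haveILetI false

noncomputable section

namespace Fermat.Agent.S32lib

open Matrix

section skolem

variable {F : Type*} [Field F]

theorem mul_single_col (X : Matrix (Fin 2) (Fin 2) F) (j : Fin 2) :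
    X * (Matrix.single j (0 : Fin 2) (1 : F) : Matrix (Fin 2) (Fin 2) F) =
      X 0 j • (Matrix.single (0 : Fin 2) (0 : Fin 2) (1 : F) : Matrix (Fin 2) (Fin 2) F) +
        X 1 j • (Matrix.single (1 : Fin 2) (0 : Fin 2) (1 : F) : Matrix (Fin 2) (Fin 2) F) := by
  ext a b
  fin_cases a <;> fin_cases b <;> fin_cases j <;>
    simp [Matrix.mul_apply, Matrix.single_apply]

/-- **Skolem–Noether for `M₂(F)`.** -/
theorem exists_conj_of_algHom
    (Ψ : Matrix (Fin 2) (Fin 2) F →ₐ[F] Matrix (Fin 2) (Fin 2) F) :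
    ∃ P : Matrix (Fin 2) (Fin 2) F, P.det ≠ 0 ∧ ∀ X, Ψ X * P = P * X := by
  classical
  -- `Ψ(E₀₀) ≠ 0`
  have h00 : Ψ (Matrix.single 0 0 (1 : F)) ≠ 0 := by
    intro h0
    have h11 : Ψ (Matrix.single 1 1 (1 : F)) = 0 := by
      have e : (Matrix.single 1 1 (1 : F) : Matrix (Fin 2) (Fin 2) F) =
          Matrix.single 1 0 (1 : F) * Matrix.single 0 0 (1 : F) * Matrix.single 0 1 (1 : F) := by
        ext a b
        fin_cases a <;> fin_cases b <;> simp [Matrix.mul_apply, Matrix.single_apply]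
      rw [e, map_mul, map_mul, h0, mul_zero, zero_mul]
    have e1 : (1 : Matrix (Fin 2) (Fin 2) F) =
        Matrix.single 0 0 (1 : F) + Matrix.single 1 1 (1 : F) := by
      ext a b
      fin_cases a <;> fin_cases b <;> simp [Matrix.single_apply]
    have h1 : Ψ 1 = 0 := by rw [e1, map_add, h0, h11, add_zero]
    rw [map_one] at h1
    exact one_ne_zero h1
  -- a vector `u` with `Ψ(E₀₀) u ≠ 0`
  obtain ⟨u, hu⟩ : ∃ u : Fin 2 → F, Ψ (Matrix.single 0 0 (1 : F)) *ᵥ u ≠ 0 := by
    by_contra hcon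
    push Not at hcon
    apply h00
    ext a b
    have := congrFun (hcon (Pi.single b 1)) a
    simpa using this
  set p : Fin 2 → (Fin 2 → F) := fun j => Ψ (Matrix.single j 0 (1 : F)) *ᵥ u with hp
  have hp0 : p 0 ≠ 0 := hu
  let P : Matrix (Fin 2) (Fin 2) F := Matrix.of fun i j => p j i
  have hPcol : ∀ (c : Fin 2 → F), P *ᵥ c = c 0 • p 0 + c 1 • p 1 := by
    intro c
    funext i
    simp [P, Matrix.mulVec, dotProduct, Fin.sum_univ_two, mul_comm]
  -- the action of `Ψ Y` on the columns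
  have hΨp : ∀ (Y : Matrix (Fin 2) (Fin 2) F) (j : Fin 2),
      Ψ Y *ᵥ p j = Ψ (Y * Matrix.single j 0 (1 : F)) *ᵥ u := by
    intro Y j
    rw [hp]
    simp only
    rw [Matrix.mulVec_mulVec, ← map_mul]
  refine ⟨P, ?_, ?_⟩
  · -- invertibility
    intro hdet
    obtain ⟨c, hc0, hc⟩ := Matrix.exists_mulVec_eq_zero_iff.mpr hdet
    rw [hPcol] at hc
    -- apply `Ψ(E₀₀)`
    have a1 : Ψ (Matrix.single 0 0 (1 : F)) *ᵥ p 0 = p 0 := by
      rw [hΨp]
      congr 2
      ext a b
      fin_cases a <;> fin_cases b <;> simp [Matrix.mul_apply, Matrix.single_apply]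
    have a2 : Ψ (Matrix.single 0 0 (1 : F)) *ᵥ p 1 = 0 := by
      rw [hΨp]
      have e : (Matrix.single 0 0 (1 : F) * Matrix.single 1 0 (1 : F) :
          Matrix (Fin 2) (Fin 2) F) = 0 := by
        ext a b
        fin_cases a <;> fin_cases b <;> simp [Matrix.mul_apply, Matrix.single_apply]
      rw [e, map_zero, Matrix.zero_mulVec]
    have a3 : Ψ (Matrix.single 0 1 (1 : F)) *ᵥ p 1 = p 0 := by
      rw [hΨp]
      congr 2
      ext a b
      fin_cases a <;> fin_cases b <;> simp [Matrix.mul_apply, Matrix.single_apply]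
    have a4 : Ψ (Matrix.single 0 1 (1 : F)) *ᵥ p 0 = 0 := by
      rw [hΨp]
      have e : (Matrix.single 0 1 (1 : F) * Matrix.single 0 0 (1 : F) :
          Matrix (Fin 2) (Fin 2) F) = 0 := by
        ext a b
        fin_cases a <;> fin_cases b <;> simp [Matrix.mul_apply, Matrix.single_apply]
      rw [e, map_zero, Matrix.zero_mulVec]
    have b1 := congrArg (fun v => Ψ (Matrix.single 0 0 (1 : F)) *ᵥ v) hc
    simp only [Matrix.mulVec_add, Matrix.mulVec_smul, a1, a2, smul_zero, add_zero,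
      Matrix.mulVec_zero] at b1
    have b2 := congrArg (fun v => Ψ (Matrix.single 0 1 (1 : F)) *ᵥ v) hc
    simp only [Matrix.mulVec_add, Matrix.mulVec_smul, a3, a4, smul_zero, zero_add,
      Matrix.mulVec_zero] at b2
    have c0 : c 0 = 0 := (smul_eq_zero.mp b1).resolve_right hp0
    have c1 : c 1 = 0 := (smul_eq_zero.mp b2).resolve_right hp0
    apply hc0
    funext i
    fin_cases i
    · exact c0
    · exact c1
  · -- the intertwining relation
    intro X
    ext i j
    have h1 : (Ψ X * P) i j = (Ψ X *ᵥ p j) i := by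
      simp [P, Matrix.mul_apply, Matrix.mulVec, dotProduct]
    have h2 : (P * X) i j = X 0 j * p 0 i + X 1 j * p 1 i := by
      simp [P, Matrix.mul_apply, Fin.sum_univ_two, mul_comm]
    have h3 : Ψ (X * Matrix.single j 0 (1 : F)) =
        X 0 j • Ψ (Matrix.single 0 0 (1 : F)) + X 1 j • Ψ (Matrix.single 1 0 (1 : F)) := by
      rw [mul_single_col, map_add, map_smul, map_smul]
    rw [h1, h2, hΨp, h3, Matrix.add_mulVec, Matrix.smul_mulVec, Matrix.smul_mulVec]
    rfl

end skolem

end Fermat.Agent.S32lib
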