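/-
S32lib / Rep (helper8): **the trace argument.**  `ρ' : G → M₂(F)` a monoid hom whose image spans
`M₂(F)` (Burnside), `N : G → Mₙ(F)` a monoid hom with the same trace function.  Then every linear
relation among the `N σ` holds among the `ρ' σ` (nondegeneracy of the trace form of `M₂(F)`).
Consequence: the `N σ` cannot all commute.
-/
import Mathlib
import Fermat.Agent.S31lib.RG.Rigidity

set_option autoImplicit false
set_option linter.unusedSectionVars false
set_option linter.style.haveILetI false

noncomputable section

namespace Fermat.Agent.S32lib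

open Matrix Fermat.Agent.S31lib.RG

section trace

variable {F : Type*} [Field F] {G : Type*} [Monoid G] {n : Type*} [Fintype n] [DecidableEq n]

theorem trace_lc_mul (N : G →* Matrix n n F) (a : G →₀ F) (τ : G) :
    (Finsupp.linearCombination F (⇑N) a * N τ).trace = a.sum fun σ c => c * (N (σ * τ)).trace := by
  rw [Finsupp.linearCombination_apply, Finsupp.sum, Finset.sum_mul, Matrix.trace_sum, Finsupp.sum]
  refine Finset.sum_congr rfl fun σ _ => ?_
  rw [Matrix.smul_mul, Matrix.trace_smul, smul_eq_mul, map_mul]

/-- **the trace argument**: relations among the `N σ` hold among the `ρ' σ`. -/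
theorem lc_eq_zero_of_trace_eq (N : G →* Matrix n n F) (ρ' : G →* Matrix (Fin 2) (Fin 2) F)
    (hspan : Submodule.span F (Set.range ρ') = ⊤) (htr : ∀ σ, (N σ).trace = (ρ' σ).trace)
    (a : G →₀ F) (ha : Finsupp.linearCombination F (⇑N) a = 0) :
    Finsupp.linearCombination F (⇑ρ') a = 0 := by
  apply eq_zero_of_trace_mul_eq_zero
  intro Y
  have hY : Y ∈ Submodule.span F (Set.range ρ') := by
    rw [hspan]
    exact Submodule.mem_top
  induction hY using Submodule.span_induction with
  | mem Y hY =>
    obtain ⟨τ, rfl⟩ := hY
    rw [trace_lc_mul]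
    have h2 := trace_lc_mul N a τ
    rw [ha, Matrix.zero_mul, Matrix.trace_zero] at h2
    rw [h2]
    refine Finsupp.sum_congr fun σ _ => ?_
    rw [htr]
  | zero => rw [Matrix.mul_zero, Matrix.trace_zero]
  | add X X' _ _ hX hX' => rw [Matrix.mul_add, Matrix.trace_add, hX, hX', add_zero]
  | smul c X _ hX => rw [Matrix.mul_smul, Matrix.trace_smul, hX, smul_zero]

/-- a spanning family of `M₂(F)` is not commutative. -/
theorem not_forall_commute_of_span (ρ' : G → Matrix (Fin 2) (Fin 2) F)
    (hspan : Submodule.span F (Set.range ρ') = ⊤) : ¬ ∀ σ τ, Commute (ρ' σ) (ρ' τ) := by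
  intro hc
  have h1 : ∀ X : Matrix (Fin 2) (Fin 2) F, ∀ τ, Commute X (ρ' τ) := by
    intro X τ
    have hX : X ∈ Submodule.span F (Set.range ρ') := by
      rw [hspan]
      exact Submodule.mem_top
    induction hX using Submodule.span_induction with
    | mem X hX =>
      obtain ⟨σ, rfl⟩ := hX
      exact hc σ τ
    | zero => exact Commute.zero_left _
    | add X X' _ _ hX hX' => exact hX.add_left hX'
    | smul c X _ hX => exact hX.smul_left c
  have h2 : ∀ X Y : Matrix (Fin 2) (Fin 2) F, Commute X Y := by
    intro X Y
    have hY : Y ∈ Submodule.span F (Set.range ρ') := by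
      rw [hspan]
      exact Submodule.mem_top
    induction hY using Submodule.span_induction with
    | mem Y hY =>
      obtain ⟨σ, rfl⟩ := hY
      exact h1 X σ
    | zero => exact Commute.zero_right _
    | add Y Y' _ _ hY hY' => exact hY.add_right hY'
    | smul c Y _ hY => exact hY.smul_right c
  have h3 := h2 (Matrix.single 0 1 (1 : F)) (Matrix.single 1 0 (1 : F))
  have h4 := congrFun (congrFun h3.eq 0) 0
  simp [Matrix.mul_apply, Matrix.single_apply] at h4

/-- if `N` has the same trace as `ρ'` (spanning), the `N σ` do not all commute. -/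
theorem not_forall_commute_of_trace_eq (N : G →* Matrix n n F)
    (ρ' : G →* Matrix (Fin 2) (Fin 2) F) (hspan : Submodule.span F (Set.range ρ') = ⊤)
    (htr : ∀ σ, (N σ).trace = (ρ' σ).trace) : ¬ ∀ σ τ, Commute (N σ) (N τ) := by
  intro hc
  apply not_forall_commute_of_span (⇑ρ') hspan
  intro σ τ
  have ha : Finsupp.linearCombination F (⇑N)
      (Finsupp.single (σ * τ) (1 : F) - Finsupp.single (τ * σ) (1 : F)) = 0 := by
    rw [map_sub, Finsupp.linearCombination_single, Finsupp.linearCombination_single, one_smul,
      one_smul, map_mul, map_mul, (hc σ τ).eq, sub_self]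
  have := lc_eq_zero_of_trace_eq N ρ' hspan htr _ ha
  rw [map_sub, Finsupp.linearCombination_single, Finsupp.linearCombination_single, one_smul,
    one_smul, map_mul, map_mul, sub_eq_zero] at this
  exact this

end trace

end Fermat.Agent.S32lib
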