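/-
S32lib / Rep (helper8): **two 2-dimensional representations with the same trace, one of them with
spanning image (Burnside), are conjugate.**  `M, ρ' : G → M₂(F)` monoid homs, `span ρ'(G) = M₂(F)`,
`tr M = tr ρ'`.  Then there is an invertible `P` with `M σ * P = P * ρ' σ` for all `σ`.
-/
import Mathlib
import Fermat.Agent.S32lib.Rep.Trace
import Fermat.Agent.S32lib.Rep.Skolem

set_option autoImplicit false
set_option linter.unusedSectionVars false
set_option linter.style.haveILetI false

noncomputable section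

namespace Fermat.Agent.S32lib

open Matrix

section conj

variable {F : Type*} [Field F] {G : Type*} [Monoid G]

/-- **same trace + Burnside ⇒ conjugate.** -/
theorem exists_conj_of_trace_eq (M ρ' : G →* Matrix (Fin 2) (Fin 2) F)
    (hspan : Submodule.span F (Set.range ρ') = ⊤) (htr : ∀ σ, (M σ).trace = (ρ' σ).trace) :
    ∃ P : Matrix (Fin 2) (Fin 2) F, P.det ≠ 0 ∧ ∀ σ, M σ * P = P * ρ' σ := by
  classical
  -- a basis of `M₂(F)` among the `ρ' σ`
  obtain ⟨κ, g, -, hsp, hli⟩ := exists_linearIndependent' F (⇑ρ')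
  rw [hspan] at hsp
  let bρ : Module.Basis κ F (Matrix (Fin 2) (Fin 2) F) := Module.Basis.mk hli hsp.ge
  have hbρ : ∀ i, bρ i = ρ' (g i) := fun i => by
    rw [Module.Basis.mk_apply]
    rfl
  haveI : Fintype κ := FiniteDimensional.fintypeBasisIndex bρ
  -- the linear-combination maps
  set Lρ := Finsupp.linearCombination F (⇑ρ') with hLρ
  set LM := Finsupp.linearCombination F (⇑M) with hLM
  have hker : ∀ a : G →₀ F, LM a = 0 → Lρ a = 0 :=
    fun a ha => lc_eq_zero_of_trace_eq M ρ' hspan htr a ha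
  have hLsum : ∀ (N : G →* Matrix (Fin 2) (Fin 2) F) (c : κ → F),
      Finsupp.linearCombination F (⇑N) (∑ i, Finsupp.single (g i) (c i)) = ∑ i, c i • N (g i) := by
    intro N c
    rw [map_sum]
    refine Finset.sum_congr rfl fun i _ => ?_
    rw [Finsupp.linearCombination_single]
  -- the `M (g i)` are linearly independent, hence a basis
  have hliM : LinearIndependent F (fun i => M (g i)) := by
    rw [Fintype.linearIndependent_iff]
    intro c hc
    have h1 : Lρ (∑ i, Finsupp.single (g i) (c i)) = 0 := by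
      apply hker
      rw [hLM, hLsum]
      exact hc
    rw [hLρ, hLsum] at h1
    have h2 : ∑ i, c i • bρ i = 0 := by
      simp only [hbρ]
      exact h1
    exact Fintype.linearIndependent_iff.mp bρ.linearIndependent c h2
  have hcard : Fintype.card κ = Module.finrank F (Matrix (Fin 2) (Fin 2) F) :=
    (Module.finrank_eq_card_basis bρ).symm
  haveI : Nonempty κ := bρ.index_nonempty
  let bM : Module.Basis κ F (Matrix (Fin 2) (Fin 2) F) :=
    basisOfLinearIndependentOfCardEqFinrank hliM hcard
  have hbM : ∀ i, bM i = M (g i) := fun i => by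
    rw [coe_basisOfLinearIndependentOfCardEqFinrank]
  -- the reverse inclusion of kernels
  have hker' : ∀ a : G →₀ F, Lρ a = 0 → LM a = 0 := by
    intro a ha
    set d := bM.repr (LM a) with hd
    have h1 : LM (a - ∑ i, Finsupp.single (g i) (d i)) = 0 := by
      rw [map_sub, hLM, hLsum, ← hLM, sub_eq_zero]
      have := bM.sum_repr (LM a)
      simp only [hbM] at this
      exact this.symm
    have h2 := hker _ h1
    rw [map_sub, ha, zero_sub, neg_eq_zero, hLρ, hLsum] at h2
    have h3 : ∑ i, d i • bρ i = 0 := by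
      simp only [hbρ]
      exact h2
    have h4 := Fintype.linearIndependent_iff.mp bρ.linearIndependent d h3
    have h5 : bM.repr (LM a) = 0 := by
      ext i
      exact h4 i
    exact (LinearEquiv.map_eq_zero_iff _).mp h5
  -- the linear map `ρ' (g i) ↦ M (g i)`
  let Ψ₀ : Matrix (Fin 2) (Fin 2) F →ₗ[F] Matrix (Fin 2) (Fin 2) F :=
    bρ.constr F (fun i => M (g i))
  have hΨ₀ : ∀ σ, Ψ₀ (ρ' σ) = M σ := by
    intro σ
    set c := bρ.repr (ρ' σ) with hc
    have h1 : Lρ (Finsupp.single σ (1 : F) - ∑ i, Finsupp.single (g i) (c i)) = 0 := by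
      rw [map_sub, hLρ, hLsum, Finsupp.linearCombination_single, one_smul, sub_eq_zero]
      have := bρ.sum_repr (ρ' σ)
      simp only [hbρ] at this
      exact this.symm
    have h2 := hker' _ h1
    rw [map_sub, hLM, hLsum, Finsupp.linearCombination_single, one_smul, sub_eq_zero] at h2
    rw [h2, Module.Basis.constr_apply_fintype]
    rfl
  have hmem : ∀ X : Matrix (Fin 2) (Fin 2) F, X ∈ Submodule.span F (Set.range ρ') := by
    intro X
    rw [hspan]
    exact Submodule.mem_top
  have hmul1 : ∀ (X : Matrix (Fin 2) (Fin 2) F) (τ : G), Ψ₀ (X * ρ' τ) = Ψ₀ X * M τ := by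
    intro X τ
    induction hmem X using Submodule.span_induction with
    | mem X hX =>
      obtain ⟨σ, rfl⟩ := hX
      rw [← map_mul, hΨ₀, hΨ₀, map_mul]
    | zero => rw [Matrix.zero_mul, map_zero, Matrix.zero_mul]
    | add X X' _ _ hX hX' => rw [Matrix.add_mul, map_add, hX, hX', map_add, Matrix.add_mul]
    | smul c X _ hX => rw [Matrix.smul_mul, map_smul, hX, map_smul, Matrix.smul_mul]
  have hmul : ∀ X Y : Matrix (Fin 2) (Fin 2) F, Ψ₀ (X * Y) = Ψ₀ X * Ψ₀ Y := by
    intro X Y
    induction hmem Y using Submodule.span_induction with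
    | mem Y hY =>
      obtain ⟨τ, rfl⟩ := hY
      rw [hmul1, hΨ₀]
    | zero => rw [Matrix.mul_zero, map_zero, Matrix.mul_zero]
    | add Y Y' _ _ hY hY' => rw [Matrix.mul_add, map_add, hY, hY', map_add, Matrix.mul_add]
    | smul c Y _ hY => rw [Matrix.mul_smul, map_smul, hY, map_smul, Matrix.mul_smul]
  have hone : Ψ₀ 1 = 1 := by
    have h1 := hΨ₀ 1
    have e1 : ρ' 1 = 1 := map_one ρ'
    have e2 : M 1 = 1 := map_one M
    rwa [e1, e2] at h1
  let Ψ : Matrix (Fin 2) (Fin 2) F →ₐ[F] Matrix (Fin 2) (Fin 2) F :=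
    AlgHom.ofLinearMap Ψ₀ hone hmul
  obtain ⟨P, hP, hPX⟩ := exists_conj_of_algHom Ψ
  refine ⟨P, hP, fun σ => ?_⟩
  rw [← hΨ₀ σ]
  exact hPX (ρ' σ)

end conj

end Fermat.Agent.S32lib
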